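import Mathlib
import Fermat.Prelude.Def_ModularCurve_PeriodHomPair

set_option autoImplicit false
set_option linter.unusedSectionVars false

/-! Upper bound for the dimension of the space of parabolic homomorphisms. -/

namespace Fermat.Agent.ES

open CongruenceSubgroup
open scoped MatrixGroups

section General

variable {G : Type*} [Group G] (Γ : Subgroup G)

/-- The factor system of coset representatives. -/
noncomputable def cfac (g : G) (x : G ⧸ Γ) : Γ :=
  ⟨(Quotient.out (g • x))⁻¹ * (g * Quotient.out x), by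
    rw [← QuotientGroup.eq]
    rw [QuotientGroup.out_eq']
    conv_lhs => rw [← QuotientGroup.out_eq' x]
    rfl⟩

theorem coe_cfac (g : G) (x : G ⧸ Γ) :
    (cfac Γ g x : G) = (Quotient.out (g • x))⁻¹ * (g * Quotient.out x) := rfl

theorem cfac_mul (g h : G) (x : G ⧸ Γ) : cfac Γ (g * h) x = cfac Γ g (h • x) * cfac Γ h x := by
  apply Subtype.ext
  rw [Subgroup.coe_mul, coe_cfac, coe_cfac, coe_cfac, mul_smul]
  group

variable {Γ}

/-- The cocycle attached to a homomorphism. -/
noncomputable def coc (φ : Additive Γ →+ ℂ) (g : G) (x : G ⧸ Γ) : ℂ :=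
  φ (Additive.ofMul (cfac Γ g x))

theorem coc_mul (φ : Additive Γ →+ ℂ) (g h : G) (x : G ⧸ Γ) :
    coc φ (g * h) x = coc φ g (h • x) + coc φ h x := by
  unfold coc
  rw [cfac_mul, ofMul_mul, map_add]

theorem coc_one (φ : Additive Γ →+ ℂ) (x : G ⧸ Γ) : coc φ 1 x = 0 := by
  have := coc_mul φ 1 1 x
  rw [mul_one, one_smul] at this
  simpa using this

theorem coc_pow (φ : Additive Γ →+ ℂ) (g : G) (n : ℕ) (x : G ⧸ Γ) :
    coc φ (g ^ n) x = ∑ i ∈ Finset.range n, coc φ g (g ^ i • x) := by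
  induction n with
  | zero => simp [coc_one]
  | succ n ih => rw [pow_succ', coc_mul, ih, Finset.sum_range_succ, add_comm]

/-- Pull back of functions along the action of `g`. -/
def pull {X : Type*} [MulAction G X] (g : G) : (X → ℂ) →ₗ[ℂ] (X → ℂ) where
  toFun v := fun x => v (g • x)
  map_add' _ _ := rfl
  map_smul' _ _ := rfl

@[simp] theorem pull_apply {X : Type*} [MulAction G X] (g : G) (v : X → ℂ) (x : X) :
    pull g v x = v (g • x) := rfl

theorem pull_pow_apply {X : Type*} [MulAction G X] (g : G) (n : ℕ) (v : X → ℂ) (x : X) :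
    ((pull g : (X → ℂ) →ₗ[ℂ] (X → ℂ)) ^ n) v x = v (g ^ n • x) := by
  induction n generalizing x v with
  | zero => simp
  | succ n ih =>
    rw [pow_succ, Module.End.mul_apply, ih, pull_apply, ← mul_smul, ← pow_succ']

theorem mem_range_of_sum_pow {V : Type*} [AddCommGroup V] [Module ℂ V] (P : Module.End ℂ V)
    (n : ℕ) (hn : 0 < n) (a : V) (h : ∑ i ∈ Finset.range n, (P ^ i) a = 0) :
    a ∈ LinearMap.range (P - 1) := by
  have h1 : ∀ i, (P ^ i) a - a ∈ LinearMap.range (P - 1) := by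
    intro i
    refine ⟨(∑ j ∈ Finset.range i, P ^ j) a, ?_⟩
    rw [← Module.End.mul_apply, mul_geom_sum]
    rfl
  have h2 : ∑ i ∈ Finset.range n, ((P ^ i) a - a) ∈ LinearMap.range (P - 1) :=
    Submodule.sum_mem _ fun i _ => h1 i
  rw [Finset.sum_sub_distrib, h, Finset.sum_const, Finset.card_range, zero_sub,
    Submodule.neg_mem_iff] at h2
  rw [← Nat.cast_smul_eq_nsmul ℂ] at h2
  have h3 := Submodule.smul_mem _ ((n : ℂ)⁻¹) h2
  rwa [smul_smul, inv_mul_cancel₀ (by exact_mod_cast hn.ne'), one_smul] at h3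

/-- The invariant functions. -/
def invs {X : Type*} [MulAction G X] (g : G) : Submodule ℂ (X → ℂ) :=
  LinearMap.ker (pull g - 1)

theorem mem_invs {X : Type*} [MulAction G X] (g : G) (v : X → ℂ) :
    v ∈ invs g ↔ ∀ x, v (g • x) = v x := by
  unfold invs
  rw [LinearMap.mem_ker]
  constructor
  · intro h x
    have := congrFun h x
    simpa [sub_eq_zero] using this
  · intro h
    ext x
    simp [h x]

/-- The coboundary type functions. -/
def cobs {X : Type*} [MulAction G X] (g : G) : Submodule ℂ (X → ℂ) :=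
  LinearMap.range (pull g - 1)

theorem finrank_cobs_add {X : Type*} [Finite X] [MulAction G X] (g : G) :
    Module.finrank ℂ (cobs (X := X) g) + Module.finrank ℂ (invs (X := X) g) = Nat.card X := by
  have := Fintype.ofFinite X
  have h := LinearMap.finrank_range_add_finrank_ker (pull g - 1 : (X → ℂ) →ₗ[ℂ] (X → ℂ))
  rw [Module.finrank_fintype_fun_eq_card, ← Nat.card_eq_fintype_card] at h
  exact h

theorem coc_mem_cobs (φ : Additive Γ →+ ℂ) (g : G) (n : ℕ) (hn : 0 < n)
    (h : ∀ x, coc φ (g ^ n) x = 0) : coc φ g ∈ cobs (X := G ⧸ Γ) g := by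
  refine mem_range_of_sum_pow _ n hn _ ?_
  ext x
  rw [Finset.sum_apply]
  simp only [pull_pow_apply]
  rw [← coc_pow, h]
  rfl

end General

theorem finrank_comap_le' {V V' : Type*} [AddCommGroup V] [Module ℂ V] [AddCommGroup V']
    [Module ℂ V'] [FiniteDimensional ℂ V] [FiniteDimensional ℂ V'] (f : V →ₗ[ℂ] V')
    (C : Submodule ℂ V') :
    Module.finrank ℂ (C.comap f) ≤ Module.finrank ℂ C + Module.finrank ℂ (LinearMap.ker f) := by
  let r : C.comap f →ₗ[ℂ] C := f.restrict (fun x hx => hx)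
  rw [← LinearMap.finrank_range_add_finrank_ker r]
  refine add_le_add (Submodule.finrank_le _) ?_
  let j : LinearMap.ker r →ₗ[ℂ] LinearMap.ker f :=
    LinearMap.codRestrict _ ((C.comap f).subtype ∘ₗ (LinearMap.ker r).subtype) (fun x => by
      have := x.2
      rw [LinearMap.mem_ker] at this ⊢
      exact congrArg Subtype.val this)
  refine LinearMap.finrank_le_finrank_of_injective (f := j) ?_
  intro x y hxy
  apply Subtype.ext
  apply Subtype.ext
  exact congrArg (fun z : LinearMap.ker f => (z : V)) hxy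

section Bound

variable {G : Type*} [Group G] {X : Type*} [MulAction G X]

/-- the map `(a, b) ↦ a ∘ T + b`. -/
def relMap (S T : G) : (cobs (X := X) S × cobs (X := X) T) →ₗ[ℂ] (X → ℂ) :=
  LinearMap.coprod (pull T ∘ₗ (cobs S).subtype) (cobs T).subtype

theorem relMap_apply (S T : G) (p : cobs (X := X) S × cobs (X := X) T) (x : X) :
    relMap S T p x = (p.1 : X → ℂ) (T • x) + (p.2 : X → ℂ) x := rfl

theorem cobs_le_range_left (S T : G) : cobs (X := X) T ≤ LinearMap.range (relMap (X := X) S T) := by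
  intro b hb
  refine ⟨(0, ⟨b, hb⟩), ?_⟩
  ext x
  simp [relMap_apply]

theorem cobs_le_range_right (S T : G) : cobs (X := X) S ≤ LinearMap.range (relMap (X := X) S T) := by
  intro a ha
  have h1 : pull T a ∈ LinearMap.range (relMap (X := X) S T) := by
    refine ⟨(⟨a, ha⟩, 0), ?_⟩
    ext x
    simp [relMap_apply]
  have h2 : pull T a - a ∈ LinearMap.range (relMap (X := X) S T) :=
    cobs_le_range_left S T ⟨a, rfl⟩
  have := Submodule.sub_mem _ h1 h2
  simpa using this

theorem cobs_le_of_generate [Finite X] (S T : G) (hgen : Subgroup.closure {S, T} = ⊤) (g : G) :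
    cobs (X := X) g ≤ LinearMap.range (relMap (X := X) S T) := by
  set M := LinearMap.range (relMap (X := X) S T) with hM
  have hg : g ∈ Subgroup.closure {S, T} := by rw [hgen]; trivial
  induction hg using Subgroup.closure_induction with
  | mem x hx =>
    rcases hx with rfl | hx
    · exact cobs_le_range_right _ _
    · rw [Set.mem_singleton_iff] at hx
      subst hx
      exact cobs_le_range_left _ _
  | one =>
    rintro _ ⟨v, rfl⟩
    have : (pull (1 : G) - 1) v = 0 := by ext x; simp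
    rw [this]; exact zero_mem _
  | mul x y _ _ hx hy =>
    rintro _ ⟨v, rfl⟩
    have : (pull (x * y) - 1) v = (pull y - 1) (pull x v) + (pull x - 1) v := by
      ext z; simp [mul_smul]
    rw [this]
    exact add_mem (hy ⟨_, rfl⟩) (hx ⟨_, rfl⟩)
  | inv x _ hx =>
    rintro _ ⟨v, rfl⟩
    have : (pull x⁻¹ - 1) v = - (pull x - 1) (pull x⁻¹ v) := by
      ext z; simp
    rw [this]
    exact neg_mem (hx ⟨_, rfl⟩)

theorem card_le_finrank_range [Finite X] [MulAction.IsPretransitive G X] [Nonempty X] (S T : G)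
    (hgen : Subgroup.closure {S, T} = ⊤) :
    Nat.card X ≤ Module.finrank ℂ (LinearMap.range (relMap (X := X) S T)) + 1 := by
  classical
  have := Fintype.ofFinite X
  set M := LinearMap.range (relMap (X := X) S T) with hM
  obtain ⟨x0⟩ := ‹Nonempty X›
  have hδ : ∀ x : X, (Pi.single x (1 : ℂ) : X → ℂ) - Pi.single x0 1 ∈ M := by
    intro x
    obtain ⟨g, hg⟩ := MulAction.exists_smul_eq G x x0
    have h1 : (pull g - 1) (Pi.single x0 (1 : ℂ) : X → ℂ) = Pi.single x 1 - Pi.single x0 1 := by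
      ext z
      simp only [LinearMap.sub_apply, Pi.sub_apply, pull_apply, Module.End.one_apply]
      congr 1
      rw [← hg]
      by_cases h : z = x
      · subst h; simp
      · rw [Pi.single_eq_of_ne h, Pi.single_eq_of_ne]
        intro h'
        exact h (MulAction.injective g h')
    rw [← h1]
    exact cobs_le_of_generate S T hgen g ⟨_, rfl⟩
  have h1 : Module.finrank ℂ ((X → ℂ) ⧸ M) ≤ 1 := by
    refine finrank_le_one (Submodule.Quotient.mk (Pi.single x0 1)) ?_
    intro w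
    obtain ⟨v, rfl⟩ := Submodule.Quotient.mk_surjective _ w
    refine ⟨∑ x, v x, ?_⟩
    rw [← Submodule.Quotient.mk_smul, Submodule.Quotient.eq]
    have h2 : (∑ x, v x) • (Pi.single x0 1 : X → ℂ) - v =
        - ∑ x, v x • ((Pi.single x (1 : ℂ) : X → ℂ) - Pi.single x0 1) := by
      have h3 : v = ∑ x, v x • (Pi.single x (1 : ℂ) : X → ℂ) := by
        ext z
        rw [Finset.sum_apply]
        simp [Pi.single_apply]
      conv_lhs => rw [h3]
      rw [Finset.sum_smul]
      simp only [smul_sub, Finset.sum_sub_distrib, neg_sub]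
      congr 1
      · simp [Pi.single_apply]
    rw [h2]
    exact neg_mem (Submodule.sum_mem _ fun x _ => Submodule.smul_mem _ _ (hδ x))
  have h2 := Submodule.finrank_quotient_add_finrank M
  rw [Module.finrank_fintype_fun_eq_card, ← Nat.card_eq_fintype_card] at h2
  omega

/-- The space of triples. -/
def relSpace (S T : G) : Submodule ℂ (cobs (X := X) S × cobs (X := X) T) :=
  (cobs (S * T)).comap (relMap S T)

theorem finrank_relSpace [Finite X] [MulAction.IsPretransitive G X] [Nonempty X] (S T : G)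
    (hgen : Subgroup.closure {S, T} = ⊤) :
    Module.finrank ℂ (relSpace (X := X) S T) + Module.finrank ℂ (invs (X := X) S) +
      Module.finrank ℂ (invs (X := X) T) + Module.finrank ℂ (invs (X := X) (S * T)) ≤
      2 * Nat.card X + 1 := by
  have := Fintype.ofFinite X
  have h1 := finrank_comap_le' (relMap (X := X) S T) (cobs (S * T))
  have h2 := card_le_finrank_range (X := X) S T hgen
  have h3 := LinearMap.finrank_range_add_finrank_ker (relMap (X := X) S T)
  rw [Module.finrank_prod] at h3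
  have h4 := finrank_cobs_add (X := X) S
  have h5 := finrank_cobs_add (X := X) T
  have h6 := finrank_cobs_add (X := X) (S * T)
  have h7 : Module.finrank ℂ (relSpace (X := X) S T) =
    Module.finrank ℂ ((cobs (X := X) (S * T)).comap (relMap (X := X) S T)) := rfl
  omega

end Bound

section Main

variable {G : Type*} [Group G] {Γ : Subgroup G}

/-- The cocycle, linear in the homomorphism and a cochain. -/
noncomputable def cocLin (Γ : Subgroup G) (g : G) :
    ((Additive Γ →+ ℂ) × (G ⧸ Γ → ℂ)) →ₗ[ℂ] (G ⧸ Γ → ℂ) where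
  toFun p := fun x => coc p.1 g x + (p.2 (g • x) - p.2 x)
  map_add' p q := by
    ext x
    simp [coc]
    ring
  map_smul' c p := by
    ext x
    simp [coc]
    ring

theorem cocLin_apply (g : G) (p : (Additive Γ →+ ℂ) × (G ⧸ Γ → ℂ)) (x : G ⧸ Γ) :
    cocLin Γ g p x = coc p.1 g x + (p.2 (g • x) - p.2 x) := rfl

theorem cocLin_mul (g h : G) (p : (Additive Γ →+ ℂ) × (G ⧸ Γ → ℂ)) (x : G ⧸ Γ) :
    cocLin Γ (g * h) p x = cocLin Γ g p (h • x) + cocLin Γ h p x := by
  rw [cocLin_apply, cocLin_apply, cocLin_apply, coc_mul, mul_smul]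
  ring

theorem cocLin_one (p : (Additive Γ →+ ℂ) × (G ⧸ Γ → ℂ)) (x : G ⧸ Γ) :
    cocLin Γ 1 p x = 0 := by
  rw [cocLin_apply, coc_one, one_smul]; ring

theorem cocLin_mem_cobs (p : (Additive Γ →+ ℂ) × (G ⧸ Γ → ℂ)) (g : G) (n : ℕ) (hn : 0 < n)
    (h : ∀ x, coc p.1 (g ^ n) x = 0) : cocLin Γ g p ∈ cobs (X := G ⧸ Γ) g := by
  have h1 := coc_mem_cobs p.1 g n hn h
  have h2 : (pull g - 1) p.2 ∈ cobs (X := G ⧸ Γ) g := ⟨_, rfl⟩
  exact add_mem h1 h2

theorem cocLin_eq_zero_of_generate {S T : G} (hgen : Subgroup.closure {S, T} = ⊤)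
    (p : (Additive Γ →+ ℂ) × (G ⧸ Γ → ℂ)) (hS : cocLin Γ S p = 0) (hT : cocLin Γ T p = 0)
    (g : G) : cocLin Γ g p = 0 := by
  have hg : g ∈ Subgroup.closure {S, T} := by rw [hgen]; trivial
  induction hg using Subgroup.closure_induction with
  | mem x hx =>
    rcases hx with rfl | hx
    · exact hS
    · rw [Set.mem_singleton_iff] at hx
      subst hx
      exact hT
  | one => ext x; exact cocLin_one p x
  | mul x y _ _ hx hy =>
    ext z
    rw [cocLin_mul, hx, hy]; simp
  | inv x _ hx =>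
    ext z
    have h1 := cocLin_mul x x⁻¹ p z
    rw [mul_inv_cancel, cocLin_one, hx] at h1
    simpa using h1.symm

theorem hom_eq_zero_of_cocLin (p : (Additive Γ →+ ℂ) × (G ⧸ Γ → ℂ))
    (h : ∀ g, cocLin Γ g p = 0) : p.1 = 0 ∧ ∀ x y, p.2 x = p.2 y := by
  have key : ∀ g x, coc p.1 g x + (p.2 (g • x) - p.2 x) = 0 := fun g x => congrFun (h g) x
  have h1 : p.1 = 0 := by
    refine AddMonoidHom.ext fun γ => ?_
    -- base point
    set x0 : G ⧸ Γ := QuotientGroup.mk 1 with hx0
    obtain ⟨γ0, hγ0⟩ := QuotientGroup.mk_out_eq_mul Γ (1 : G)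
    have hout : Quotient.out x0 = (γ0 : G) := by
      have : Quotient.out x0 = 1 * (γ0 : G) := hγ0
      rw [this, one_mul]
    set δ : Γ := Additive.toMul γ with hδ
    -- choose g = γ0 δ γ0⁻¹
    have hg : ((γ0 * δ * γ0⁻¹ : Γ) : G) • x0 = x0 := by
      rw [hx0]
      change (QuotientGroup.mk (((γ0 * δ * γ0⁻¹ : Γ) : G) * 1) : G ⧸ Γ) = QuotientGroup.mk 1
      rw [QuotientGroup.eq, mul_one, mul_one]
      exact Γ.inv_mem (Subtype.property _)
    have h2 := key ((γ0 * δ * γ0⁻¹ : Γ) : G) x0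
    rw [hg, sub_self, add_zero] at h2
    have h3 : cfac Γ ((γ0 * δ * γ0⁻¹ : Γ) : G) x0 = δ := by
      apply Subtype.ext
      rw [coe_cfac, hg, hout]
      push_cast
      group
    unfold coc at h2
    rw [h3] at h2
    exact h2
  refine ⟨h1, fun x y => ?_⟩
  obtain ⟨g, hg⟩ := MulAction.exists_smul_eq G x y
  have h2 := key g x
  rw [h1, hg] at h2
  have h3 : coc (Γ := Γ) 0 g x = 0 := rfl
  rw [h3, zero_add] at h2
  exact (sub_eq_zero.mp h2).symm

open ModularCurve.Period

theorem coc_eq_zero_of_pow_eq_one (φ : Additive Γ →+ ℂ) (g : G) (h : g = 1) (x : G ⧸ Γ) :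
    coc φ g x = 0 := by
  subst h; exact coc_one φ x

theorem coc_T_pow_eq_zero {N : ℕ} (φ : Additive (Gamma0 N) →+ ℂ)
    (hφ : IsParabolicHom (Gamma0 N) φ) (x : SL(2, ℤ) ⧸ Gamma0 N) :
    coc φ (ModularGroup.T ^ N) x = 0 := by
  unfold coc
  apply hφ
  -- the action of `T ^ N` is trivial
  have hmem : ModularGroup.T ^ N ∈ CongruenceSubgroup.Gamma N := by
    simpa using ModularGroup_T_pow_mem_Gamma N N dvd_rfl
  have hfix : ModularGroup.T ^ N • x = x := by
    obtain ⟨g, rfl⟩ := QuotientGroup.mk_surjective x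
    change (QuotientGroup.mk (ModularGroup.T ^ N * g) : SL(2, ℤ) ⧸ Gamma0 N) = QuotientGroup.mk g
    rw [eq_comm, QuotientGroup.eq, ← mul_assoc]
    have h2 := (Gamma_normal N).conj_mem _ hmem g⁻¹
    rw [inv_inv] at h2
    rw [Gamma_mem] at h2
    rw [Gamma0_mem]
    exact h2.2.2.1
  rw [coe_cfac, hfix]
  have htr : ((((Quotient.out x)⁻¹ * (ModularGroup.T ^ N * Quotient.out x) : SL(2, ℤ)) :
      Matrix (Fin 2) (Fin 2) ℤ)).trace = 2 := by
    rw [Matrix.SpecialLinearGroup.coe_mul, Matrix.trace_mul_comm,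
      ← Matrix.SpecialLinearGroup.coe_mul, mul_assoc, mul_inv_cancel, mul_one]
    rw [← zpow_natCast, ModularGroup.coe_T_zpow, Matrix.trace_fin_two]
    simp
  rw [htr]; norm_num

variable (N : ℕ) [NeZero N]

instance finite_quot : Finite (SL(2, ℤ) ⧸ Gamma0 N) := by
  have : (Gamma0 N).FiniteIndex := (Gamma0_is_congruence N).finiteIndex
  infer_instance

/-- The comparison map. -/
noncomputable def cmpMap :
    (parabolicHoms ℂ (Gamma0 N) ℂ × (SL(2, ℤ) ⧸ Gamma0 N → ℂ)) →ₗ[ℂ]
      relSpace (X := SL(2, ℤ) ⧸ Gamma0 N) ModularGroup.S ModularGroup.T :=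
  LinearMap.codRestrict _
    (LinearMap.prod
      (LinearMap.codRestrict _ (cocLin (Gamma0 N) ModularGroup.S ∘ₗ
        LinearMap.prodMap (Submodule.subtype _) LinearMap.id) (fun p => by
          refine cocLin_mem_cobs _ _ 4 (by norm_num) (fun x => coc_eq_zero_of_pow_eq_one _ _ ?_ x)
          ext i j
          fin_cases i <;> fin_cases j <;> simp [ModularGroup.S, pow_succ]))
      (LinearMap.codRestrict _ (cocLin (Gamma0 N) ModularGroup.T ∘ₗ
        LinearMap.prodMap (Submodule.subtype _) LinearMap.id) (fun p => by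
          exact cocLin_mem_cobs _ _ N (Nat.pos_of_ne_zero (NeZero.ne N))
            (fun x => coc_T_pow_eq_zero _ p.1.2 x))))
    (fun p => by
      change relMap _ _ _ ∈ cobs _
      have h1 : cocLin (Gamma0 N) (ModularGroup.S * ModularGroup.T) ((p.1 : _), p.2) ∈
          cobs (X := SL(2, ℤ) ⧸ Gamma0 N) (ModularGroup.S * ModularGroup.T) := by
        refine cocLin_mem_cobs _ _ 6 (by norm_num) (fun x => coc_eq_zero_of_pow_eq_one _ _ ?_ x)
        ext i j
        fin_cases i <;> fin_cases j <;> simp [ModularGroup.S, ModularGroup.T, pow_succ]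
      convert h1 using 1
      ext x
      rw [relMap_apply, cocLin_mul]
      rfl)

theorem cmpMap_eq_zero (p : parabolicHoms ℂ (Gamma0 N) ℂ × (SL(2, ℤ) ⧸ Gamma0 N → ℂ))
    (h : cmpMap N p = 0) : p.1 = 0 ∧ ∀ x y, p.2 x = p.2 y := by
  have h1 : cocLin (Gamma0 N) ModularGroup.S ((p.1 : _), p.2) = 0 :=
    congrArg (fun w : relSpace (X := SL(2, ℤ) ⧸ Gamma0 N) ModularGroup.S ModularGroup.T =>
      ((w : cobs (X := SL(2, ℤ) ⧸ Gamma0 N) ModularGroup.S ×
        cobs (X := SL(2, ℤ) ⧸ Gamma0 N) ModularGroup.T).1 : (SL(2, ℤ) ⧸ Gamma0 N → ℂ))) h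
  have h2 : cocLin (Gamma0 N) ModularGroup.T ((p.1 : _), p.2) = 0 :=
    congrArg (fun w : relSpace (X := SL(2, ℤ) ⧸ Gamma0 N) ModularGroup.S ModularGroup.T =>
      ((w : cobs (X := SL(2, ℤ) ⧸ Gamma0 N) ModularGroup.S ×
        cobs (X := SL(2, ℤ) ⧸ Gamma0 N) ModularGroup.T).2 : (SL(2, ℤ) ⧸ Gamma0 N → ℂ))) h
  have h3 := hom_eq_zero_of_cocLin _ (cocLin_eq_zero_of_generate
    SpecialLinearGroup.SL2Z_generators _ h1 h2)
  exact ⟨Subtype.ext h3.1, h3.2⟩

theorem finite_parabolicHoms : Module.Finite ℂ (parabolicHoms ℂ (Gamma0 N) ℂ) := by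
  have := Fintype.ofFinite (SL(2, ℤ) ⧸ Gamma0 N)
  refine Module.Finite.of_injective (cmpMap N ∘ₗ LinearMap.inl ℂ _ _) ?_
  rw [injective_iff_map_eq_zero]
  intro p hp
  exact (cmpMap_eq_zero N (p, 0) hp).1

theorem finrank_parabolicHoms_le :
    Module.finrank ℂ (parabolicHoms ℂ (Gamma0 N) ℂ) +
      Module.finrank ℂ (invs (X := SL(2, ℤ) ⧸ Gamma0 N) ModularGroup.S) +
      Module.finrank ℂ (invs (X := SL(2, ℤ) ⧸ Gamma0 N) ModularGroup.T) +
      Module.finrank ℂ (invs (X := SL(2, ℤ) ⧸ Gamma0 N) (ModularGroup.S * ModularGroup.T)) ≤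
      Nat.card (SL(2, ℤ) ⧸ Gamma0 N) + 2 := by
  have := Fintype.ofFinite (SL(2, ℤ) ⧸ Gamma0 N)
  have := finite_parabolicHoms N
  have h1 := finrank_relSpace (X := SL(2, ℤ) ⧸ Gamma0 N) ModularGroup.S ModularGroup.T
    SpecialLinearGroup.SL2Z_generators
  have h2 := LinearMap.finrank_range_add_finrank_ker (K := ℂ)
    (V := parabolicHoms ℂ (Gamma0 N) ℂ × (SL(2, ℤ) ⧸ Gamma0 N → ℂ))
    (V₂ := relSpace (X := SL(2, ℤ) ⧸ Gamma0 N) ModularGroup.S ModularGroup.T) (cmpMap N)
  rw [Module.finrank_prod, Module.finrank_fintype_fun_eq_card, ← Nat.card_eq_fintype_card] at h2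
  have h3 : Module.finrank ℂ (LinearMap.ker (cmpMap N)) ≤ 1 := by
    refine finrank_le_one (v := ⟨(0, fun _ => 1), ?_⟩) ?_
    · rw [LinearMap.mem_ker]
      apply Subtype.ext
      apply Prod.ext <;> apply Subtype.ext <;> ext x
      · change coc (Γ := Gamma0 N) 0 _ x + (1 - 1) = 0
        rw [sub_self, add_zero]; rfl
      · change coc (Γ := Gamma0 N) 0 _ x + (1 - 1) = 0
        rw [sub_self, add_zero]; rfl
    · rintro ⟨p, hp⟩
      obtain ⟨hp1, hp2⟩ := cmpMap_eq_zero N p (LinearMap.mem_ker.mp hp)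
      refine ⟨p.2 (QuotientGroup.mk 1), ?_⟩
      apply Subtype.ext
      apply Prod.ext
      · simp [hp1]
      · ext x
        simpa using hp2 _ _
  have h4 : Module.finrank ℂ (LinearMap.range (cmpMap N)) ≤
      Module.finrank ℂ (relSpace (X := SL(2, ℤ) ⧸ Gamma0 N) ModularGroup.S ModularGroup.T) :=
    Submodule.finrank_le _
  omega

end Main

end Fermat.Agent.ES
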