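import Mathlib
import Fermat.Prelude.Def_ModularCurve_PeriodHomPair

set_option autoImplicit false
set_option linter.unusedSectionVars false

/-! Part A of the Eichler-Shimura isomorphism in weight two: primitives of cusp forms. -/

namespace Fermat.Agent.ES

open UpperHalfPlane Filter Topology CongruenceSubgroup Complex
open scoped MatrixGroups ModularForm Manifold

local notation "𝕢" => Function.Periodic.qParam

/-- derivative of the `q`-parameter -/
theorem hasDerivAt_qParam (h : ℝ) (z : ℂ) :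
    HasDerivAt (𝕢 h) (2 * Real.pi * Complex.I / h * 𝕢 h z) z := by
  unfold Function.Periodic.qParam
  have h1 : HasDerivAt (fun z : ℂ => 2 * Real.pi * Complex.I * z / h)
      (2 * Real.pi * Complex.I / h) z := by
    have := ((hasDerivAt_id z).const_mul (2 * Real.pi * Complex.I)).div_const (h : ℂ)
    simpa using this
  exact h1.cexp.congr_deriv (mul_comm _ _)

/-- A primitive in the `q`-disc. -/
theorem exists_disc_primitive {g : ℂ → ℂ} (hg : DifferentiableOn ℂ g (Metric.ball 0 1))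
    (hg0 : g 0 = 0) :
    ∃ G : ℂ → ℂ, G 0 = 0 ∧ DifferentiableOn ℂ G (Metric.ball 0 1) ∧
      ∀ q ∈ Metric.ball (0 : ℂ) 1, ∃ d : ℂ, HasDerivAt G d q ∧ q * d = g q := by
  have h1 : DifferentiableOn ℂ (dslope g 0) (Metric.ball 0 1) :=
    (Complex.differentiableOn_dslope (Metric.isOpen_ball.mem_nhds (by simp))).2 hg
  obtain ⟨G, hG0, hG⟩ := h1.isExactOn_ball.with_val_at 0 0
  refine ⟨G, hG0, fun q hq => (hG q hq).differentiableAt.differentiableWithinAt,
    fun q hq => ⟨_, hG q hq, ?_⟩⟩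
  have := sub_smul_dslope g 0 q
  simpa [hg0] using this

/-- Primitive of a periodic holomorphic function on the upper half plane which vanishes
at `i∞`, in terms of a holomorphic function on the `q`-disc. -/
theorem exists_qPrimitive {h : ℝ} (hh : 0 < h) {f : ℍ → ℂ} (hf : MDiff f)
    (hper : Function.Periodic (f ∘ ofComplex) h) (hz : IsZeroAtImInfty f) :
    ∃ G : ℂ → ℂ, G 0 = 0 ∧ DifferentiableOn ℂ G (Metric.ball 0 1) ∧
      ∀ τ : ℍ, HasDerivAt (fun z : ℂ => G (𝕢 h z)) (f τ) τ := by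
  have hbdd : IsBoundedAtImInfty f := hz.boundedAtFilter
  have hg := differentiableOn_cuspFunction_ball hh hper hf hbdd
  have hg0 : cuspFunction h f 0 = 0 := hz.cuspFunction_apply_zero hh
  obtain ⟨G, hG0, hGd, hG⟩ := exists_disc_primitive hg hg0
  refine ⟨fun q => (h / (2 * Real.pi * Complex.I)) * G q, by simp [hG0],
    hGd.const_mul _, fun τ => ?_⟩
  have hq : 𝕢 h τ ∈ Metric.ball (0 : ℂ) 1 := by
    simpa using Function.Periodic.norm_qParam_lt_one hh τ.im_pos
  obtain ⟨d, hd, hd'⟩ := hG _ hq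
  have h1 := (hd.comp (τ : ℂ) (hasDerivAt_qParam h τ)).const_mul (h / (2 * Real.pi * Complex.I))
  have hpi : (2 * Real.pi * Complex.I : ℂ) ≠ 0 := Complex.two_pi_I_ne_zero
  have hhc : (h : ℂ) ≠ 0 := by exact_mod_cast hh.ne'
  have h2 : (h / (2 * Real.pi * Complex.I)) * (d * (2 * Real.pi * Complex.I / h * 𝕢 h τ)) = f τ := by
    rw [← eq_cuspFunction τ hh.ne' hper, ← hd']
    field_simp
  rw [h2] at h1
  exact h1

/-- `F` is a primitive of `f` on the upper half plane. -/
def IsPrim (F f : ℍ → ℂ) : Prop := ∀ τ : ℍ, HasDerivAt (F ∘ ofComplex) (f τ) τ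

theorem IsPrim.add {F G f g : ℍ → ℂ} (hF : IsPrim F f) (hG : IsPrim G g) :
    IsPrim (F + G) (f + g) := fun τ => (hF τ).add (hG τ)

theorem IsPrim.const_mul {F f : ℍ → ℂ} (c : ℂ) (hF : IsPrim F f) :
    IsPrim (fun τ => c * F τ) (fun τ => c * f τ) := fun τ => (hF τ).const_mul c

theorem IsPrim.add_const {F f : ℍ → ℂ} (c : ℂ) (hF : IsPrim F f) :
    IsPrim (fun τ => F τ + c) f := fun τ => (hF τ).add_const c

theorem IsPrim.eq_add_const {F G f : ℍ → ℂ} (hF : IsPrim F f) (hG : IsPrim G f) :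
    ∃ c : ℂ, ∀ τ, F τ = G τ + c := by
  have hopen := isOpen_upperHalfPlaneSet
  have hconn : IsPreconnected upperHalfPlaneSet :=
    (convex_halfSpace_im_gt 0).isPreconnected
  have hd : ∀ z ∈ upperHalfPlaneSet, HasDerivAt (fun z => F (ofComplex z) - G (ofComplex z)) 0 z := by
    intro z hz
    have := (hF ⟨z, hz⟩).sub (hG ⟨z, hz⟩)
    rw [sub_self] at this
    exact this
  obtain ⟨c, hc⟩ := hopen.exists_is_const_of_deriv_eq_zero hconn
    (fun z hz => (hd z hz).differentiableAt.differentiableWithinAt)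
    (fun z hz => (hd z hz).deriv)
  refine ⟨c, fun τ => ?_⟩
  have := hc τ τ.im_pos
  simp only [ofComplex_apply] at this
  rw [← this]; ring

theorem det_coe_SL (δ : SL(2, ℤ)) : (δ : GL (Fin 2) ℝ).val.det = 1 := by
  rw [← Matrix.GeneralLinearGroup.val_det_apply]; simp

theorem IsPrim.comp_smul {F f : ℍ → ℂ} (hF : IsPrim F f) (δ : SL(2, ℤ)) :
    IsPrim (fun τ => F (δ • τ)) (f ∣[(2 : ℤ)] δ) := by
  intro τ
  have hdet : (0 : ℝ) < (δ : GL (Fin 2) ℝ).val.det := by rw [det_coe_SL]; norm_num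
  have h1 := (hasStrictDerivAt_smul hdet τ).hasDerivAt
  have h2 : HasDerivAt (F ∘ ofComplex) (f (δ • τ))
      (((δ : GL (Fin 2) ℝ) • ofComplex (τ : ℂ) : ℍ) : ℂ) := by
    rw [ofComplex_apply]; exact hF (δ • τ)
  have h3 := h2.comp (τ : ℂ) h1
  have h4 : ((F ∘ ofComplex) ∘ fun w : ℂ => (((δ : GL (Fin 2) ℝ) • ofComplex w : ℍ) : ℂ))
      = (fun τ => F (δ • τ)) ∘ ofComplex := by
    ext w
    simp only [Function.comp_apply, ofComplex_apply]
    rfl
  rw [h4] at h3
  refine h3.congr_deriv ?_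
  rw [ModularForm.SL_slash_apply]
  have hdet1 : ((δ : GL (Fin 2) ℝ).val.det : ℂ) = 1 := by rw [det_coe_SL]; norm_num
  rw [hdet1, zpow_neg, one_div]
  norm_cast

theorem slash_T_zpow_apply (k : ℤ) (f : ℍ → ℂ) (n : ℤ) (τ : ℍ) :
    (f ∣[k] (ModularGroup.T ^ n)) τ = f (ModularGroup.T ^ n • τ) := by
  rw [ModularForm.SL_slash_apply]
  have : denom (ModularGroup.T ^ n : SL(2, ℤ)) τ = 1 := by
    simp [UpperHalfPlane.denom, ModularGroup.coe_T_zpow, -map_zpow]
  rw [this]; simp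

theorem ofComplex_add_int (n : ℤ) {w : ℂ} (hw : 0 < w.im) :
    ofComplex (w + n) = ModularGroup.T ^ n • ofComplex w := by
  have h2 : 0 < (w + n).im := by simpa using hw
  rw [ofComplex_apply_of_im_pos h2, ofComplex_apply_of_im_pos hw]
  ext
  rw [ModularGroup.coe_T_zpow_smul_eq]

theorem periodic_ofComplex_iff {f : ℍ → ℂ} (n : ℤ) (hf : ∀ τ, f (ModularGroup.T ^ n • τ) = f τ) :
    Function.Periodic (f ∘ ofComplex) n := by
  intro w
  by_cases hw : 0 < w.im
  · simp only [Function.comp_apply]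
    rw [ofComplex_add_int n hw, hf]
  · have h1 : (w + n).im ≤ 0 := by simpa using hw
    simp [ofComplex_apply_of_im_nonpos h1, ofComplex_apply_of_im_nonpos (not_lt.mp hw)]

theorem conj_T_mem_Gamma0 (N : ℕ) (δ : SL(2, ℤ)) :
    δ * ModularGroup.T ^ (N : ℤ) * δ⁻¹ ∈ Gamma0 N := by
  have h1 : ModularGroup.T ^ (N : ℤ) ∈ CongruenceSubgroup.Gamma N := by
    simpa using ModularGroup_T_pow_mem_Gamma N N dvd_rfl
  have h2 := (Gamma_normal N).conj_mem _ h1 δ
  rw [Gamma_mem] at h2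
  rw [Gamma0_mem]
  exact h2.2.2.1

theorem slash_periodic {N : ℕ} {k : ℤ} {f : ℍ → ℂ} (hf : ∀ γ ∈ Gamma0 N, f ∣[k] γ = f)
    (δ : SL(2, ℤ)) : Function.Periodic ((f ∣[k] δ) ∘ ofComplex) (N : ℝ) := by
  have := periodic_ofComplex_iff (f := f ∣[k] δ) (N : ℤ) (fun τ => by
    rw [← slash_T_zpow_apply k (f ∣[k] δ)]
    rw [← SlashAction.slash_mul]
    have h1 : δ * ModularGroup.T ^ (N : ℤ) = (δ * ModularGroup.T ^ (N : ℤ) * δ⁻¹) * δ := by group
    rw [h1, SlashAction.slash_mul, hf _ (conj_T_mem_Gamma0 N δ)])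
  simpa using this

section CuspForms

variable {N : ℕ} [NeZero N]

theorem cuspForm_slash_eq {k : ℤ} (f : CuspForm (Gamma0 N) k) (γ : SL(2, ℤ)) (hγ : γ ∈ Gamma0 N) :
    (f : ℍ → ℂ) ∣[k] γ = f :=
  SlashInvariantFormClass.slash_action_eq f _ ⟨γ, hγ, rfl⟩

theorem cuspForm_slash_periodic {k : ℤ} (f : CuspForm (Gamma0 N) k) (δ : SL(2, ℤ)) :
    Function.Periodic (((f : ℍ → ℂ) ∣[k] δ) ∘ ofComplex) (N : ℝ) :=
  slash_periodic (cuspForm_slash_eq f) δ

theorem cuspForm_slash_isZero {k : ℤ} (f : CuspForm (Gamma0 N) k) (δ : SL(2, ℤ)) :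
    IsZeroAtImInfty ((f : ℍ → ℂ) ∣[k] δ) :=
  CuspFormClass.zero_at_infty_slash f δ

theorem cuspForm_slash_mdiff {k : ℤ} (f : CuspForm (Gamma0 N) k) (δ : SL(2, ℤ)) :
    MDiff ((f : ℍ → ℂ) ∣[k] δ) :=
  (CuspFormClass.holo f).slash k δ

theorem isPrim_of_hasDerivAt {G : ℂ → ℂ} {f : ℍ → ℂ}
    (h : ∀ τ : ℍ, HasDerivAt G (f τ) τ) : IsPrim (fun τ => G τ) f := by
  intro τ
  refine (h τ).congr_of_eventuallyEq ?_
  filter_upwards [isOpen_upperHalfPlaneSet.mem_nhds τ.im_pos] with w hw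
  simp [ofComplex_apply_of_im_pos hw]

theorem tendsto_qPrim {h : ℝ} (hh : 0 < h) {G : ℂ → ℂ} (hG0 : G 0 = 0)
    (hG : DifferentiableOn ℂ G (Metric.ball 0 1)) :
    Tendsto (fun τ : ℍ => G (𝕢 h τ)) atImInfty (𝓝 0) := by
  have h1 : Tendsto G (𝓝 0) (𝓝 0) := by
    have := ((hG 0 (by simp)).differentiableAt
      (Metric.isOpen_ball.mem_nhds (by simp))).continuousAt.tendsto
    rwa [hG0] at this
  exact h1.comp (qParam_tendsto_atImInfty hh)

theorem cuspForm_exists_prim (f : CuspForm (Gamma0 N) 2) (δ : SL(2, ℤ)) :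
    ∃ G : ℂ → ℂ, G 0 = 0 ∧ DifferentiableOn ℂ G (Metric.ball 0 1) ∧
      IsPrim (fun τ => G (𝕢 N τ)) ((f : ℍ → ℂ) ∣[(2 : ℤ)] δ) := by
  have hN : (0 : ℝ) < N := by exact_mod_cast Nat.pos_of_ne_zero (NeZero.ne N)
  obtain ⟨G, h0, h1, h2⟩ := exists_qPrimitive hN (cuspForm_slash_mdiff f δ)
    (cuspForm_slash_periodic f δ) (cuspForm_slash_isZero f δ)
  exact ⟨G, h0, h1, isPrim_of_hasDerivAt h2⟩

theorem exists_hasEquivariantPrimitive (f : CuspForm (Gamma0 N) 2) :
    ∃ F : ℍ → ℂ, ModularCurve.HasEquivariantPrimitive N f F := by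
  have hN : (0 : ℝ) < N := by exact_mod_cast Nat.pos_of_ne_zero (NeZero.ne N)
  obtain ⟨G, h0, h1, h2⟩ := cuspForm_exists_prim f 1
  rw [SlashAction.slash_one] at h2
  refine ⟨fun τ => G (𝕢 N τ), h2, tendsto_qPrim hN h0 h1, ?_, ?_⟩
  · intro γ
    have h3 := h2.comp_smul (γ : SL(2, ℤ))
    rw [cuspForm_slash_eq f _ γ.2] at h3
    obtain ⟨c, hc⟩ := h3.eq_add_const h2
    exact ⟨c, fun z => by simp only [hc z]; ring⟩
  · intro δ
    obtain ⟨G', h0', h1', h2'⟩ := cuspForm_exists_prim f δ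
    obtain ⟨c, hc⟩ := (h2.comp_smul δ).eq_add_const h2'
    refine ⟨c, ?_⟩
    have := (tendsto_qPrim hN h0' h1').add_const c
    rw [zero_add] at this
    exact this.congr (fun τ => (hc τ).symm)

theorem hasEquivariantPrimitive_unique {f : CuspForm (Gamma0 N) 2} {F F' : ℍ → ℂ}
    (h : ModularCurve.HasEquivariantPrimitive N f F)
    (h' : ModularCurve.HasEquivariantPrimitive N f F') : F = F' := by
  obtain ⟨c, hc⟩ := IsPrim.eq_add_const h.1 h'.1
  have h1 := h'.2.1.add_const c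
  have h2 : Tendsto F atImInfty (𝓝 (0 + c)) := h1.congr (fun τ => (hc τ).symm)
  have h3 := tendsto_nhds_unique h.2.1 h2
  rw [zero_add] at h3
  subst h3
  ext τ
  simpa using hc τ

open ModularCurve ModularCurve.Period

variable (N) in
/-- The chosen primitive of a cusp form. -/
noncomputable def prim (f : CuspForm (Gamma0 N) 2) : ℍ → ℂ :=
  (exists_hasEquivariantPrimitive f).choose

theorem prim_spec (f : CuspForm (Gamma0 N) 2) : HasEquivariantPrimitive N f (prim N f) :=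
  (exists_hasEquivariantPrimitive f).choose_spec

theorem periodMap_apply (f : CuspForm (Gamma0 N) 2) (γ : Gamma0 N) :
    periodMap N f (Additive.ofMul γ) =
      prim N f ((γ : SL(2, ℤ)) • UpperHalfPlane.I) - prim N f UpperHalfPlane.I := by
  obtain ⟨F₀, h₀, h⟩ := periodMap_def N f (prim_spec f)
  rw [h]
  have : F₀ = prim N f := hasEquivariantPrimitive_unique h₀ (prim_spec f)
  subst this
  rfl

theorem prim_smul_sub (f : CuspForm (Gamma0 N) 2) (γ : Gamma0 N) (z : ℍ) :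
    prim N f ((γ : SL(2, ℤ)) • z) - prim N f z = periodMap N f (Additive.ofMul γ) := by
  rw [periodMap_apply]
  exact (prim_spec f).2.2.1.sub_eq_period γ z

theorem prim_add (f g : CuspForm (Gamma0 N) 2) : prim N (f + g) = prim N f + prim N g := by
  refine hasEquivariantPrimitive_unique (prim_spec (f + g)) ⟨?_, ?_, ?_, ?_⟩
  · exact IsPrim.add (prim_spec f).1 (prim_spec g).1
  · have := (prim_spec f).2.1.add (prim_spec g).2.1
    rw [add_zero] at this
    exact this
  · intro γ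
    obtain ⟨c, hc⟩ := (prim_spec f).2.2.1 γ
    obtain ⟨d, hd⟩ := (prim_spec g).2.2.1 γ
    refine ⟨c + d, fun z => ?_⟩
    simp only [Pi.add_apply]
    rw [← hc z, ← hd z]; ring
  · intro δ
    obtain ⟨c, hc⟩ := (prim_spec f).2.2.2 δ
    obtain ⟨d, hd⟩ := (prim_spec g).2.2.2 δ
    exact ⟨c + d, hc.add hd⟩

theorem prim_smul (a : ℂ) (f : CuspForm (Gamma0 N) 2) : prim N (a • f) = a • prim N f := by
  refine hasEquivariantPrimitive_unique (prim_spec (a • f)) ⟨?_, ?_, ?_, ?_⟩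
  · exact IsPrim.const_mul a (prim_spec f).1
  · have := (prim_spec f).2.1.const_mul a
    rw [mul_zero] at this
    exact this
  · intro γ
    obtain ⟨c, hc⟩ := (prim_spec f).2.2.1 γ
    refine ⟨a * c, fun z => ?_⟩
    simp only [Pi.smul_apply, smul_eq_mul]
    rw [← hc z]; ring
  · intro δ
    obtain ⟨c, hc⟩ := (prim_spec f).2.2.2 δ
    exact ⟨a * c, hc.const_mul a⟩

theorem prim_isPrim (f : CuspForm (Gamma0 N) 2) : IsPrim (prim N f) f := (prim_spec f).1

variable (N) in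
/-- The period map as a linear map. -/
noncomputable def periodLin : CuspForm (Gamma0 N) 2 →ₗ[ℂ] (Additive (Gamma0 N) →+ ℂ) where
  toFun f := periodMap N f
  map_add' f g := by
    refine AddMonoidHom.ext fun γ => ?_
    have h : ∀ γ : Gamma0 N, periodMap N (f + g) (Additive.ofMul γ) =
        (periodMap N f + periodMap N g) (Additive.ofMul γ) := by
      intro γ
      rw [AddMonoidHom.add_apply, periodMap_apply, periodMap_apply, periodMap_apply, prim_add]
      simp only [Pi.add_apply]; ring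
    exact h (Additive.toMul γ)
  map_smul' a f := by
    refine AddMonoidHom.ext fun γ => ?_
    have h : ∀ γ : Gamma0 N, periodMap N (a • f) (Additive.ofMul γ) =
        (a • periodMap N f) (Additive.ofMul γ) := by
      intro γ
      rw [AddMonoidHom.smul_apply, periodMap_apply, periodMap_apply, prim_smul]
      simp only [Pi.smul_apply, smul_eq_mul]; ring
    exact h (Additive.toMul γ)

theorem periodLin_apply (f : CuspForm (Gamma0 N) 2) (γ : Gamma0 N) :
    periodLin N f (Additive.ofMul γ) =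
      prim N f ((γ : SL(2, ℤ)) • UpperHalfPlane.I) - prim N f UpperHalfPlane.I :=
  periodMap_apply f γ

variable (N) in
theorem existsPeriodMapLinear : ExistsPeriodMapLinear N := ⟨periodLin N, fun _ => rfl⟩

theorem periodHomPair_apply (f g : CuspForm (Gamma0 N) 2) :
    periodHomPair N (f, g) = (periodLin N f + charInvolution N ℂ ℂ (periodLin N f)) +
      (periodLin N g - charInvolution N ℂ ℂ (periodLin N g)) := by
  obtain ⟨pml, hpml, h⟩ := periodHomPair_def N (existsPeriodMapLinear N)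
  have : pml = periodLin N := by
    refine LinearMap.ext fun f => ?_
    rw [hpml]; rfl
  subst this
  rw [h]
  rfl

end CuspForms

end Fermat.Agent.ES
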