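import Mathlib
import Fermat.Agent.ES.Primitive

set_option autoImplicit false
set_option linter.unusedSectionVars false

namespace Fermat.Agent.ES

open UpperHalfPlane Filter Topology CongruenceSubgroup Complex
open scoped MatrixGroups ModularForm Manifold

theorem exists_conj_upper (γ : SL(2, ℤ))
    (h : ((γ : Matrix (Fin 2) (Fin 2) ℤ)).trace ^ 2 = 4) :
    ∃ δ : SL(2, ℤ), (δ⁻¹ * γ * δ) 1 0 = 0 := by
  rw [Matrix.trace_fin_two] at h
  have hdet := γ.det_coe
  rw [Matrix.det_fin_two] at hdet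
  -- epsilon
  obtain ⟨e, he, he2⟩ : ∃ e : ℤ, γ 0 0 + γ 1 1 = 2 * e ∧ e ^ 2 = 1 := by
    have h1 : (γ 0 0 + γ 1 1 - 2) * (γ 0 0 + γ 1 1 + 2) = 0 := by linear_combination h
    rcases mul_eq_zero.mp h1 with h2 | h2
    · exact ⟨1, by linear_combination h2, by norm_num⟩
    · exact ⟨-1, by linear_combination h2, by norm_num⟩
  by_cases hc : γ 1 0 = 0
  · exact ⟨1, by simpa using hc⟩
  · have hg : Int.gcd (γ 0 0 - e) (γ 1 0) ≠ 0 := by
      rw [Ne, Int.gcd_eq_zero_iff]; tauto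
    obtain ⟨g, p, q, hgpos, hcop, hp, hq⟩ := Int.exists_gcd_one' (Nat.pos_of_ne_zero hg)
    have hcop' : IsCoprime p q := Int.isCoprime_iff_gcd_eq_one.mpr hcop
    obtain ⟨δ, hδ0, hδ1⟩ := hcop'.exists_SL2_col 0
    refine ⟨δ, ?_⟩
    have hg0 : (g : ℤ) ≠ 0 := by exact_mod_cast hgpos.ne'
    have hentry : (δ⁻¹ * γ * δ) 1 0 =
        -δ 1 0 * (γ 0 0 * δ 0 0 + γ 0 1 * δ 1 0) + δ 0 0 * (γ 1 0 * δ 0 0 + γ 1 1 * δ 1 0) := by
      simp only [Matrix.SpecialLinearGroup.coe_mul, Matrix.SpecialLinearGroup.coe_inv,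
        Matrix.adjugate_fin_two, Matrix.mul_apply, Fin.sum_univ_two]
      simp
      ring
    rw [hentry, hδ0, hδ1]
    have h2 : (g : ℤ) * g * (-q * (γ 0 0 * p + γ 0 1 * q) + p * (γ 1 0 * p + γ 1 1 * q)) = 0 := by
      have : (g : ℤ) * g * (-q * (γ 0 0 * p + γ 0 1 * q) + p * (γ 1 0 * p + γ 1 1 * q)) =
        -(q * g) * (γ 0 0 * (p * g) + γ 0 1 * (q * g)) +
          (p * g) * (γ 1 0 * (p * g) + γ 1 1 * (q * g)) := by ring
      rw [this, ← hp, ← hq]
      have h11 : γ 1 1 = 2 * e - γ 0 0 := by linear_combination he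
      rw [h11] at hdet ⊢
      linear_combination (γ 1 0) * hdet - (γ 1 0) * he2
    rcases mul_eq_zero.mp h2 with h3 | h3
    · exact absurd h3 (mul_ne_zero hg0 hg0)
    · exact h3

theorem T_zpow_smul_tendsto (n : ℤ) :
    Tendsto (fun w : ℍ => ModularGroup.T ^ n • w) atImInfty atImInfty := by
  rw [atImInfty, tendsto_comap_iff]
  refine tendsto_comap.congr (fun w => ?_)
  exact (ModularGroup.im_T_zpow_smul w n).symm

variable {N : ℕ} [NeZero N]

open ModularCurve ModularCurve.Period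

theorem periodLin_mem_parabolicHoms (f : CuspForm (Gamma0 N) 2) :
    periodLin N f ∈ parabolicHoms ℂ (Gamma0 N) ℂ := by
  rw [mem_parabolicHoms_iff]
  intro γ hγ
  obtain ⟨δ, hδ⟩ := exists_conj_upper (γ : SL(2, ℤ)) hγ
  obtain ⟨n, hn⟩ := ModularGroup.exists_eq_T_zpow_of_c_eq_zero hδ
  obtain ⟨L, hL⟩ := (prim_spec f).2.2.2 δ
  have h1 := hL.comp (T_zpow_smul_tendsto n)
  have h2 := h1.sub hL
  have h3 : ∀ w : ℍ, ((fun w : ℍ => prim N f (δ • w)) ∘ fun w : ℍ => ModularGroup.T ^ n • w) w -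
      prim N f (δ • w) = periodMap N f (Additive.ofMul γ) := by
    intro w
    rw [← prim_smul_sub f γ (δ • w)]
    simp only [Function.comp_apply]
    rw [← hn w, ← mul_smul, ← mul_smul]
    congr 3
    group
  have h4 := tendsto_nhds_unique (h2.congr h3) tendsto_const_nhds
  rw [sub_self] at h4
  exact h4.symm

theorem periodHomPair_mem (p : CuspForm (Gamma0 N) 2 × CuspForm (Gamma0 N) 2) :
    periodHomPair N p ∈ parabolicHoms ℂ (Gamma0 N) ℂ := by
  obtain ⟨f, g⟩ := p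
  rw [periodHomPair_apply]
  have hf := periodLin_mem_parabolicHoms f
  have hg := periodLin_mem_parabolicHoms g
  exact add_mem (add_mem hf (charInvolution_mem_parabolicHoms N ℂ ℂ hf))
    (sub_mem hg (charInvolution_mem_parabolicHoms N ℂ ℂ hg))

end Fermat.Agent.ES
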