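import Mathlib
import Fermat.Agent.ES.Parabolic

set_option autoImplicit false
set_option linter.unusedSectionVars false

namespace Fermat.Agent.ES

open UpperHalfPlane Filter Topology CongruenceSubgroup Complex
open scoped MatrixGroups ModularForm Manifold ComplexConjugate

local notation "𝕢" => Function.Periodic.qParam

variable {N : ℕ} [NeZero N]

theorem exists_coset_rep (δ : SL(2, ℤ)) :
    ∃ x : SL(2, ℤ) ⧸ Gamma0 N, ∃ γ ∈ Gamma0 N, δ = γ * (Quotient.out x)⁻¹ := by
  refine ⟨(QuotientGroup.mk δ⁻¹ : SL(2, ℤ) ⧸ Gamma0 N), ?_⟩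
  obtain ⟨γ, hγ⟩ := QuotientGroup.mk_out_eq_mul (Gamma0 N) δ⁻¹
  refine ⟨(γ : SL(2, ℤ)), γ.2, ?_⟩
  have : Quotient.out (QuotientGroup.mk δ⁻¹ : SL(2, ℤ) ⧸ Gamma0 N) = δ⁻¹ * γ := hγ
  rw [this]; group

theorem max_principle {H w : ℍ → ℂ} (hw : IsPrim H w)
    (hre : ∀ γ ∈ Gamma0 N, ∀ z : ℍ, (H (γ • z)).re = (H z).re)
    (Φ : SL(2, ℤ) → ℂ → ℂ) (hΦ : ∀ δ, DifferentiableOn ℂ (Φ δ) (Metric.ball 0 1))
    (hH : ∀ (δ : SL(2, ℤ)) (z : ℍ), H (δ • z) = Φ δ (𝕢 N z)) (z : ℍ) : w z = 0 := by
  have hN : (0 : ℝ) < N := by exact_mod_cast Nat.pos_of_ne_zero (NeZero.ne N)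
  have hfin : Finite (SL(2, ℤ) ⧸ Gamma0 N) := by
    have : (Gamma0 N).FiniteIndex := (Gamma0_is_congruence N).finiteIndex
    infer_instance
  set r : ℝ := Real.exp (-Real.pi / N) with hr
  have hr0 : 0 ≤ r := (Real.exp_pos _).le
  have hr1 : r < 1 := by
    rw [hr, Real.exp_lt_one_iff, neg_div]
    simpa using div_pos Real.pi_pos hN
  have hsub : Metric.closedBall (0 : ℂ) r ⊆ Metric.ball 0 1 := Metric.closedBall_subset_ball hr1
  let E : (SL(2, ℤ) ⧸ Gamma0 N) → ℂ → ℂ := fun x q => Complex.exp (Φ (Quotient.out x)⁻¹ q)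
  have hE : ∀ x, DifferentiableOn ℂ (E x) (Metric.ball 0 1) := fun x => (hΦ _).cexp
  have hmax : ∀ x, ∃ q ∈ Metric.closedBall (0 : ℂ) r,
      IsMaxOn (fun q => ‖E x q‖) (Metric.closedBall (0 : ℂ) r) q := fun x =>
    (isCompact_closedBall _ _).exists_isMaxOn ⟨0, by simpa using hr0⟩
      (((hE x).continuousOn.mono hsub).norm)
  choose qm hqm hqmax using hmax
  obtain ⟨x0, hx0⟩ := Finite.exists_max (fun x => ‖E x (qm x)‖)
  have key : ∀ q ∈ Metric.ball (0 : ℂ) 1, ‖E x0 q‖ ≤ ‖E x0 (qm x0)‖ := by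
    intro q hq
    by_cases hq0 : q = 0
    · subst hq0
      exact hqmax x0 (by simpa using hr0)
    · have hq1 : ‖q‖ < 1 := by simpa using hq
      let τ : ℍ := ⟨Function.Periodic.invQParam N q,
        Function.Periodic.im_invQParam_pos_of_norm_lt_one hN hq1 hq0⟩
      have hτ : 𝕢 N τ = q := Function.Periodic.qParam_right_inv hN.ne' hq0
      obtain ⟨γ', hγ', -⟩ := ModularGroup.exists_one_half_le_im_smul_and_norm_denom_le τ
      obtain ⟨x, γ, hγ, hx⟩ := exists_coset_rep (N := N) ((Quotient.out x0)⁻¹ * γ'⁻¹)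
      have h1 : (Φ (Quotient.out x0)⁻¹ q).re = (Φ (Quotient.out x)⁻¹ (𝕢 N (γ' • τ : ℍ))).re := by
        rw [← hτ, ← hH, ← hH]
        have : (Quotient.out x0)⁻¹ • τ = γ • ((Quotient.out x)⁻¹ • (γ' • τ)) := by
          rw [← mul_smul, ← mul_smul, ← hx]
          congr 1
          group
        rw [this, hre _ hγ]
      have h2 : ‖E x0 q‖ = ‖E x (𝕢 N (γ' • τ : ℍ))‖ := by
        simp only [E, Complex.norm_exp]
        rw [h1]
      rw [h2]
      refine le_trans ?_ (hx0 x)
      refine hqmax x ?_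
      simp only [Metric.mem_closedBall, dist_zero_right]
      rw [Function.Periodic.norm_qParam, hr, Real.exp_le_exp]
      have : (1 : ℝ) / 2 ≤ ((γ' • τ : ℍ) : ℂ).im := hγ'
      rw [div_le_div_iff_of_pos_right hN]
      nlinarith [Real.pi_pos]
  have hconst : Set.EqOn (E x0) (Function.const ℂ (E x0 (qm x0))) (Metric.ball 0 1) :=
    Complex.eqOn_of_isPreconnected_of_isMaxOn_norm
      (convex_ball _ _).isPreconnected Metric.isOpen_ball (hE x0) (hsub (hqm x0)) key
  have hexp : ∀ z : ℍ, Complex.exp (H z) = E x0 (qm x0) := by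
    intro z
    have h1 : H z = Φ (Quotient.out x0)⁻¹ (𝕢 N ((Quotient.out x0) • z : ℍ)) := by
      rw [← hH, inv_smul_smul]
    rw [h1]
    refine hconst ?_
    simpa using Function.Periodic.norm_qParam_lt_one hN (UpperHalfPlane.im_pos _)
  have h3 := (hw z).cexp
  have h4 : (fun x : ℂ => Complex.exp ((H ∘ ofComplex) x)) = fun _ => E x0 (qm x0) := by
    ext x; exact hexp _
  rw [h4] at h3
  have h5 := h3.unique (hasDerivAt_const _ _)
  rcases mul_eq_zero.mp h5 with h6 | h6
  · exact absurd h6 (Complex.exp_ne_zero _)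
  · exact h6

open ModularCurve ModularCurve.Period

theorem jconj_smul (δ : SL(2, ℤ)) (z : ℍ) : J • (δ • z) = jConjSL δ • (J • z) := by
  have h1 : J * (δ : GL (Fin 2) ℝ) = (jConjSL δ : GL (Fin 2) ℝ) * J := by
    ext i j
    fin_cases i <;> fin_cases j <;>
      simp [J, Matrix.mul_apply, Fin.sum_univ_two]
  have h2 : J • (δ • z) = (J * (δ : GL (Fin 2) ℝ)) • z := by rw [mul_smul]; rfl
  have h3 : jConjSL δ • (J • z) = ((jConjSL δ : GL (Fin 2) ℝ) * J) • z := by rw [mul_smul]; rfl
  rw [h2, h3, h1]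

theorem qParam_J (h : ℝ) (z : ℍ) : 𝕢 h (J • z : ℍ) = conj (𝕢 h z) := by
  rw [coe_J_smul]
  unfold Function.Periodic.qParam
  rw [← Complex.exp_conj]
  congr 1
  simp [Complex.conj_ofNat]

/-- analytic description of `prim f ∘ δ` near the cusp -/
theorem prim_slash_eq (f : CuspForm (Gamma0 N) 2) (δ : SL(2, ℤ)) :
    ∃ G : ℂ → ℂ, DifferentiableOn ℂ G (Metric.ball 0 1) ∧
      ∀ z : ℍ, prim N f (δ • z) = G (𝕢 N z) := by
  obtain ⟨G', h0', h1', h2'⟩ := cuspForm_exists_prim f δ
  obtain ⟨c, hc⟩ := ((prim_isPrim f).comp_smul δ).eq_add_const h2'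
  exact ⟨fun q => G' q + c, h1'.add_const c, hc⟩

theorem differentiableOn_conj_conj {G : ℂ → ℂ} (hG : DifferentiableOn ℂ G (Metric.ball 0 1)) :
    DifferentiableOn ℂ (fun q => conj (G (conj q))) (Metric.ball 0 1) := by
  intro q hq
  have hq' : conj q ∈ Metric.ball (0 : ℂ) 1 := by simpa using hq
  have h1 : DifferentiableAt ℂ G (conj q) :=
    (hG _ hq').differentiableAt (Metric.isOpen_ball.mem_nhds hq')
  have := h1.star_star
  simp only [Complex.star_def, Function.comp_def, RingHomCompTriple.comp_apply] at this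
  exact this.differentiableWithinAt

theorem IsPrim.conj_J {F f : ℍ → ℂ} (hF : IsPrim F f) :
    IsPrim (fun z => conj (F (J • z))) (fun z => - conj (f (J • z))) := by
  intro τ
  have h1 : HasDerivAt (F ∘ ofComplex) (f (J • τ)) ((J • τ : ℍ) : ℂ) := hF (J • τ)
  have h2 : HasDerivAt (fun z : ℂ => (F ∘ ofComplex) (-z)) (- f (J • τ)) (conj (τ : ℂ)) := by
    have h3 : HasDerivAt (F ∘ ofComplex) (f (J • τ)) (-(conj (τ : ℂ))) := by
      rw [← coe_J_smul]; exact h1
    have h4 := h3.comp (conj (τ : ℂ)) (hasDerivAt_neg _)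
    rw [mul_neg_one] at h4
    exact h4
  have h5 := h2.conj_conj
  rw [Complex.conj_conj, map_neg] at h5
  refine h5.congr_of_eventuallyEq ?_
  filter_upwards [isOpen_upperHalfPlaneSet.mem_nhds τ.im_pos] with w hw
  simp only [Function.comp_apply]
  rw [J_smul, ofComplex_apply_of_im_pos hw]

theorem injective_periodHomPair : Function.Injective (periodHomPair N) := by
  rw [injective_iff_map_eq_zero]
  rintro ⟨f, g⟩ hfg
  set u := f + g with hu
  set v := f - g with hv
  -- the basic invariance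
  have hinv : ∀ γ : Gamma0 N, ∀ z : ℍ,
      prim N u ((γ : SL(2, ℤ)) • z) + prim N v (J • ((γ : SL(2, ℤ)) • z)) =
        prim N u z + prim N v (J • z) := by
    intro γ z
    have h1 := prim_smul_sub u γ z
    have h2 := prim_smul_sub v (jConjGamma0 N γ) (J • z)
    have h3 : periodMap N u (Additive.ofMul γ) +
        periodMap N v (Additive.ofMul (jConjGamma0 N γ)) = 0 := by
      have h4 := DFunLike.congr_fun hfg (Additive.ofMul γ)
      rw [periodHomPair_apply] at h4
      simp only [AddMonoidHom.add_apply, AddMonoidHom.sub_apply, charInvolution_apply,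
        AddMonoidHom.zero_apply, toMul_ofMul] at h4
      have h5 : periodMap N u = periodLin N f + periodLin N g := by
        rw [← map_add]; rfl
      have h6 : periodMap N v = periodLin N f - periodLin N g := by
        rw [← map_sub]; rfl
      rw [h5, h6]
      simp only [AddMonoidHom.add_apply, AddMonoidHom.sub_apply]
      linear_combination h4
    rw [jconj_smul]
    have h7 : ((jConjGamma0 N γ : Gamma0 N) : SL(2, ℤ)) = jConjSL (γ : SL(2, ℤ)) := rfl
    rw [h7] at h2
    linear_combination h1 + h2 + h3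
  have hPu := prim_isPrim u
  have hPv := (prim_isPrim v).conj_J
  choose Gu hGud hGu using fun δ => prim_slash_eq u δ
  choose Gv hGvd hGv using fun δ => prim_slash_eq v δ
  have hexp : ∀ (δ : SL(2, ℤ)) (z : ℍ), conj (prim N v (J • (δ • z))) =
      conj (Gv (jConjSL δ) (conj (𝕢 N z))) := by
    intro δ z
    rw [jconj_smul, hGv, qParam_J]
  have h1 : ∀ z, u z + - conj (v (J • z)) = 0 := by
    refine max_principle (N := N) (H := fun z => prim N u z + conj (prim N v (J • z)))
      (w := fun z => u z + - conj (v (J • z))) (hPu.add hPv) ?_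
      (fun δ q => Gu δ q + conj (Gv (jConjSL δ) (conj q)))
      (fun δ => (hGud δ).add (differentiableOn_conj_conj (hGvd _))) ?_
    · intro γ hγ z
      have := congrArg Complex.re (hinv ⟨γ, hγ⟩ z)
      simpa using this
    · intro δ z
      simp only [hexp, hGu]
  have h2 : ∀ z, -Complex.I * (u z + (-1) * - conj (v (J • z))) = 0 := by
    refine max_principle (N := N)
      (H := fun z => -Complex.I * (prim N u z + (-1) * conj (prim N v (J • z))))
      (w := fun z => -Complex.I * (u z + (-1) * - conj (v (J • z))))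
      ((hPu.add (hPv.const_mul (-1))).const_mul _) ?_
      (fun δ q => -Complex.I * (Gu δ q + (-1) * conj (Gv (jConjSL δ) (conj q))))
      (fun δ => (((hGud δ).add ((differentiableOn_conj_conj (hGvd _)).const_mul _)).const_mul _)) ?_
    · intro γ hγ z
      have := congrArg Complex.im (hinv ⟨γ, hγ⟩ z)
      simpa using this
    · intro δ z
      simp only [hexp, hGu]
  have h3 : ∀ z, u z = 0 := by
    intro z
    have e1 := h1 z
    have e2 := h2 z
    have e3 : u z + (-1) * - conj (v (J • z)) = 0 := by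
      rcases mul_eq_zero.mp e2 with h | h
      · exact absurd h (by simp)
      · exact h
    linear_combination (e1 + e3) / 2
  have h4 : ∀ z, v z = 0 := by
    intro z
    have e1 := h1 (J • z)
    rw [h3, zero_add, neg_eq_zero, ← mul_smul] at e1
    have hJ : (J * J : GL (Fin 2) ℝ) = 1 := by rw [← sq]; simp
    rw [hJ, one_smul] at e1
    simpa using e1
  have h5 : u = 0 := by ext z; exact h3 z
  have h6 : v = 0 := by ext z; exact h4 z
  have h7 : f = 0 := by
    have : (2 : ℂ) • f = u + v := by rw [hu, hv, two_smul]; abel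
    rw [h5, h6, add_zero] at this
    exact (smul_eq_zero.mp this).resolve_left (by norm_num)
  have h8 : g = 0 := by
    have : g = u - f := by rw [hu]; abel
    rw [this, h5, h7, sub_zero]
  rw [h7, h8]; rfl

end Fermat.Agent.ES
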