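import Mathlib
import Fermat.Agent.ES.Injective
import Fermat.Agent.ES.HomBound
import Fermat.Agent.Gamma0Count
import Fermat.Prelude.Def_ModularCurve_GenusNumerics

set_option autoImplicit false
set_option linter.unusedSectionVars false

/-! Assembly of the Eichler-Shimura isomorphism from the dimension formula, and conversely. -/

namespace Fermat.Agent.ES

open CongruenceSubgroup ModularCurve ModularCurve.Period
open scoped MatrixGroups

theorem finrank_invs {G : Type*} [Group G] {Y : Type*} [MulAction G Y] [Finite Y] (g : G) :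
    Module.finrank ℂ (invs (X := Y) g) =
      Nat.card (MulAction.orbitRel.Quotient (Subgroup.zpowers g) Y) := by
  classical
  have := Fintype.ofFinite Y
  have hfin : Finite (MulAction.orbitRel.Quotient (Subgroup.zpowers g) Y) := Quotient.finite _
  have := Fintype.ofFinite (MulAction.orbitRel.Quotient (Subgroup.zpowers g) Y)
  have hz : ∀ (v : Y → ℂ), v ∈ invs (X := Y) g → ∀ (h : Subgroup.zpowers g) (y : Y),
      v (h • y) = v y := by
    intro v hv h y
    rw [mem_invs] at hv
    obtain ⟨h, hh⟩ := h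
    obtain ⟨n, rfl⟩ := Subgroup.mem_zpowers_iff.mp hh
    change v (g ^ n • y) = v y
    have hnat : ∀ (n : ℕ) (y : Y), v (g ^ n • y) = v y := by
      intro n
      induction n with
      | zero => intro y; simp
      | succ n ih => intro y; rw [pow_succ', mul_smul, hv, ih]
    obtain ⟨m, rfl | rfl⟩ := n.eq_nat_or_neg
    · rw [zpow_natCast]; exact hnat m y
    · have := hnat m (g ^ (-(m : ℤ)) • y)
      rw [zpow_neg, zpow_natCast, smul_inv_smul] at this
      rw [zpow_neg, zpow_natCast]
      exact this.symm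
  let e : (MulAction.orbitRel.Quotient (Subgroup.zpowers g) Y → ℂ) ≃ₗ[ℂ] invs (X := Y) g :=
    { toFun := fun w => ⟨fun y => w (Quotient.mk'' y), by
        rw [mem_invs]
        intro x
        congr 1
        refine Quotient.sound' ?_
        exact ⟨⟨g, Subgroup.mem_zpowers g⟩, rfl⟩⟩
      map_add' := fun _ _ => rfl
      map_smul' := fun _ _ => rfl
      invFun := fun v => fun q => Quotient.liftOn' q v.1 (by
        rintro a b ⟨h, rfl⟩
        exact hz v.1 v.2 h b)
      left_inv := by
        intro w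
        ext q
        induction q using Quotient.inductionOn' with
        | h y => rfl
      right_inv := by
        intro v
        rfl }
  rw [← e.finrank_eq, Module.finrank_fintype_fun_eq_card, Nat.card_eq_fintype_card]

variable (N : ℕ) [NeZero N]

/-- The Euler characteristic of the orbit data is the genus formula. -/
theorem euler_eq_genusFormula :
    (Nat.card (SL(2, ℤ) ⧸ Gamma0 N) : ℚ) + 2 -
      Module.finrank ℂ (invs (X := SL(2, ℤ) ⧸ Gamma0 N) ModularGroup.S) -
      Module.finrank ℂ (invs (X := SL(2, ℤ) ⧸ Gamma0 N) ModularGroup.T) -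
      Module.finrank ℂ (invs (X := SL(2, ℤ) ⧸ Gamma0 N) (ModularGroup.S * ModularGroup.T)) =
    2 * genusFormula N := by
  have h1 := Gamma0Count.card_quotient N
  have h2 : Module.finrank ℂ (invs (X := SL(2, ℤ) ⧸ Gamma0 N) ModularGroup.T) = cuspCount N :=
    (finrank_invs _).trans (Gamma0Count.card_T_orbits N)
  have h3 : 2 * Module.finrank ℂ (invs (X := SL(2, ℤ) ⧸ Gamma0 N) ModularGroup.S) =
      dedekindPsi N + nuTwo N := by
    rw [← Gamma0Count.card_S_orbits N]
    exact congrArg (2 * ·) (finrank_invs _)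
  have h4 : 3 * Module.finrank ℂ
      (invs (X := SL(2, ℤ) ⧸ Gamma0 N) (ModularGroup.S * ModularGroup.T)) =
      dedekindPsi N + 2 * nuThree N := by
    rw [← Gamma0Count.card_ST_orbits N]
    exact congrArg (3 * ·) (finrank_invs _)
  have h3' : (Module.finrank ℂ (invs (X := SL(2, ℤ) ⧸ Gamma0 N) ModularGroup.S) : ℚ) =
      (dedekindPsi N + nuTwo N) / 2 := by
    rw [eq_div_iff (by norm_num)]
    rw [mul_comm]
    exact_mod_cast h3
  have h4' : (Module.finrank ℂ
      (invs (X := SL(2, ℤ) ⧸ Gamma0 N) (ModularGroup.S * ModularGroup.T)) : ℚ) =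
      (dedekindPsi N + 2 * nuThree N) / 3 := by
    rw [eq_div_iff (by norm_num)]
    rw [mul_comm]
    exact_mod_cast h4
  rw [h1, h2, h3', h4']
  unfold genusFormula
  ring

theorem finite_cuspForm_two : Module.Finite ℂ (CuspForm (Gamma0 N) 2) := by
  have := finite_parabolicHoms N
  let Φ : (CuspForm (Gamma0 N) 2 × CuspForm (Gamma0 N) 2) →ₗ[ℂ] parabolicHoms ℂ (Gamma0 N) ℂ :=
    LinearMap.codRestrict _ (periodHomPair N) (fun p => periodHomPair_mem p)
  have hΦ : Function.Injective Φ := by
    intro x y hxy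
    exact injective_periodHomPair (congrArg Subtype.val hxy)
  have h1 : Module.Finite ℂ (CuspForm (Gamma0 N) 2 × CuspForm (Gamma0 N) 2) :=
    Module.Finite.of_injective Φ hΦ
  exact Module.Finite.of_surjective (LinearMap.fst ℂ (CuspForm (Gamma0 N) 2)
    (CuspForm (Gamma0 N) 2)) LinearMap.fst_surjective

theorem two_mul_finrank_le :
    2 * Module.finrank ℂ (CuspForm (Gamma0 N) 2) ≤
      Module.finrank ℂ (parabolicHoms ℂ (Gamma0 N) ℂ) := by
  have := finite_parabolicHoms N
  have := finite_cuspForm_two N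
  let Φ : (CuspForm (Gamma0 N) 2 × CuspForm (Gamma0 N) 2) →ₗ[ℂ] parabolicHoms ℂ (Gamma0 N) ℂ :=
    LinearMap.codRestrict _ (periodHomPair N) (fun p => periodHomPair_mem p)
  have hΦ : Function.Injective Φ := by
    intro x y hxy
    exact injective_periodHomPair (congrArg Subtype.val hxy)
  have h1 := LinearMap.finrank_le_finrank_of_injective hΦ
  rw [Module.finrank_prod] at h1
  omega

/-- The upper bound for the dimension of the space of cusp forms. -/
theorem finrank_cuspForm_two_le :
    2 * Module.finrank ℂ (CuspForm (Gamma0 N) 2) +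
      Module.finrank ℂ (invs (X := SL(2, ℤ) ⧸ Gamma0 N) ModularGroup.S) +
      Module.finrank ℂ (invs (X := SL(2, ℤ) ⧸ Gamma0 N) ModularGroup.T) +
      Module.finrank ℂ (invs (X := SL(2, ℤ) ⧸ Gamma0 N) (ModularGroup.S * ModularGroup.T)) ≤
      Nat.card (SL(2, ℤ) ⧸ Gamma0 N) + 2 := by
  have h1 := two_mul_finrank_le N
  have h2 := finrank_parabolicHoms_le N
  omega

/-- `S20` follows from the lower bound. -/
theorem genus_of_lower
    (h : Nat.card (SL(2, ℤ) ⧸ Gamma0 N) + 2 ≤ 2 * Module.finrank ℂ (CuspForm (Gamma0 N) 2) +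
      Module.finrank ℂ (invs (X := SL(2, ℤ) ⧸ Gamma0 N) ModularGroup.S) +
      Module.finrank ℂ (invs (X := SL(2, ℤ) ⧸ Gamma0 N) ModularGroup.T) +
      Module.finrank ℂ (invs (X := SL(2, ℤ) ⧸ Gamma0 N) (ModularGroup.S * ModularGroup.T))) :
    (Module.finrank ℂ (CuspForm (Gamma0 N) 2) : ℚ) = genusFormula N := by
  have h1 := finrank_cuspForm_two_le N
  have h2 := euler_eq_genusFormula N
  have h3 := le_antisymm h1 h
  have h4 : (2 * Module.finrank ℂ (CuspForm (Gamma0 N) 2) +
      Module.finrank ℂ (invs (X := SL(2, ℤ) ⧸ Gamma0 N) ModularGroup.S) +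
      Module.finrank ℂ (invs (X := SL(2, ℤ) ⧸ Gamma0 N) ModularGroup.T) +
      Module.finrank ℂ (invs (X := SL(2, ℤ) ⧸ Gamma0 N) (ModularGroup.S * ModularGroup.T)) : ℚ) =
      Nat.card (SL(2, ℤ) ⧸ Gamma0 N) + 2 := by exact_mod_cast h3
  linarith

/-- `S21` follows from `S20`. -/
theorem eichlerShimura_of_genus
    (h : (Module.finrank ℂ (CuspForm (Gamma0 N) 2) : ℚ) = genusFormula N) :
    Function.Injective (ModularCurve.periodHomPair N)
      ∧ LinearMap.range (ModularCurve.periodHomPair N)
          = ModularCurve.Period.parabolicHoms ℂ (CongruenceSubgroup.Gamma0 N) ℂ := by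
  refine ⟨injective_periodHomPair, ?_⟩
  have := finite_parabolicHoms N
  have := finite_cuspForm_two N
  have hle : LinearMap.range (periodHomPair N) ≤ parabolicHoms ℂ (Gamma0 N) ℂ := by
    rintro _ ⟨p, rfl⟩
    exact periodHomPair_mem p
  refine Submodule.eq_of_le_of_finrank_le hle ?_
  have h1 : Module.finrank ℂ (LinearMap.range (periodHomPair N)) =
      2 * Module.finrank ℂ (CuspForm (Gamma0 N) 2) := by
    rw [LinearMap.finrank_range_of_inj (injective_periodHomPair (N := N)), Module.finrank_prod]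
    ring
  rw [h1]
  have h2 := finrank_parabolicHoms_le N
  have h3 := euler_eq_genusFormula N
  have h4 : (Module.finrank ℂ (parabolicHoms ℂ (Gamma0 N) ℂ) : ℚ) +
      Module.finrank ℂ (invs (X := SL(2, ℤ) ⧸ Gamma0 N) ModularGroup.S) +
      Module.finrank ℂ (invs (X := SL(2, ℤ) ⧸ Gamma0 N) ModularGroup.T) +
      Module.finrank ℂ (invs (X := SL(2, ℤ) ⧸ Gamma0 N) (ModularGroup.S * ModularGroup.T)) ≤
      Nat.card (SL(2, ℤ) ⧸ Gamma0 N) + 2 := by exact_mod_cast h2
  have h5 : (Module.finrank ℂ (parabolicHoms ℂ (Gamma0 N) ℂ) : ℚ) ≤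
      ((2 * Module.finrank ℂ (CuspForm (Gamma0 N) 2) : ℕ) : ℚ) := by
    push_cast
    rw [h]
    linarith
  exact_mod_cast h5

end Fermat.Agent.ES
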